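import Fermat.Agent.S52.RS

/-!
# S52: the discriminant relation of the Rubin–Silverberg family, staged (F2)
(generated by helper52's python CAS; every step is one multiplication checked by `ring`)
-/

set_option autoImplicit false
set_option maxHeartbeats 0
set_option maxRecDepth 1000000

namespace Fermat.Agent.S52

variable {R : Type*} [CommRing R]

/-- expanded product `rsF2` -/
def rsF2 (H T t : R) : R :=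
  1 + 132 * H * t ^ (2 : ℕ) - 880 * T * t ^ (3 : ℕ) + 1386 * H ^ (2 : ℕ) * t ^ (4 : ℕ)
    - 51744 * H * T * t ^ (5 : ℕ) - 207900 * H ^ (3 : ℕ) * t ^ (6 : ℕ)
    + 172480 * T ^ (2 : ℕ) * t ^ (6 : ℕ) + 1715472 * H ^ (2 : ℕ) * T * t ^ (7 : ℕ)
    + 1287495 * H ^ (4 : ℕ) * t ^ (8 : ℕ) - 4308480 * H * T ^ (2 : ℕ) * t ^ (8 : ℕ)
    - 4523904 * H ^ (3 : ℕ) * T * t ^ (9 : ℕ) + 9574400 * T ^ (3 : ℕ) * t ^ (9 : ℕ)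
    + 9088200 * H ^ (5 : ℕ) * t ^ (10 : ℕ) + 37483776 * H ^ (2 : ℕ) * T ^ (2 : ℕ) * t ^ (10 : ℕ)
    + 53978400 * H ^ (4 : ℕ) * T * t ^ (11 : ℕ) + 7311360 * H * T ^ (3 : ℕ) * t ^ (11 : ℕ)
    + 251577900 * H ^ (6 : ℕ) * t ^ (12 : ℕ) + 176020992 * H ^ (3 : ℕ) * T ^ (2 : ℕ) * t ^ (12 : ℕ)
    - 12185600 * T ^ (4 : ℕ) * t ^ (12 : ℕ) - 916090560 * H ^ (5 : ℕ) * T * t ^ (13 : ℕ)
    - 844462080 * H ^ (2 : ℕ) * T ^ (3 : ℕ) * t ^ (13 : ℕ) + 408969000 * H ^ (7 : ℕ) * t ^ (14 : ℕ)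
    + 2774445696 * H ^ (4 : ℕ) * T ^ (2 : ℕ) * t ^ (14 : ℕ)
    + 2297856000 * H * T ^ (4 : ℕ) * t ^ (14 : ℕ) - 109058400 * H ^ (6 : ℕ) * T * t ^ (15 : ℕ)
    - 3226189824 * H ^ (3 : ℕ) * T ^ (3 : ℕ) * t ^ (15 : ℕ)
    - 3063808000 * T ^ (5 : ℕ) * t ^ (15 : ℕ) + 2607177375 * H ^ (8 : ℕ) * t ^ (16 : ℕ)
    + 1744934400 * H ^ (5 : ℕ) * T ^ (2 : ℕ) * t ^ (16 : ℕ)
    - 827228160 * H ^ (2 : ℕ) * T ^ (4 : ℕ) * t ^ (16 : ℕ)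
    - 19014652800 * H ^ (7 : ℕ) * T * t ^ (17 : ℕ)
    - 34891388928 * H ^ (4 : ℕ) * T ^ (3 : ℕ) * t ^ (17 : ℕ)
    - 15895756800 * H * T ^ (5 : ℕ) * t ^ (17 : ℕ) - 18944887500 * H ^ (9 : ℕ) * t ^ (18 : ℕ)
    - 18034410240 * H ^ (6 : ℕ) * T ^ (2 : ℕ) * t ^ (18 : ℕ)
    + 18563973120 * H ^ (3 : ℕ) * T ^ (4 : ℕ) * t ^ (18 : ℕ)
    + 17661952000 * T ^ (6 : ℕ) * t ^ (18 : ℕ) + 45467730000 * H ^ (8 : ℕ) * T * t ^ (19 : ℕ)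
    + 89745739776 * H ^ (5 : ℕ) * T ^ (3 : ℕ) * t ^ (19 : ℕ)
    + 44281036800 * H ^ (2 : ℕ) * T ^ (5 : ℕ) * t ^ (19 : ℕ)
    + 5683466250 * H ^ (10 : ℕ) * t ^ (20 : ℕ)
    - 19399564800 * H ^ (7 : ℕ) * T ^ (2 : ℕ) * t ^ (20 : ℕ)
    - 55359811584 * H ^ (4 : ℕ) * T ^ (4 : ℕ) * t ^ (20 : ℕ)
    - 30277632000 * H * T ^ (6 : ℕ) * t ^ (20 : ℕ) + 9526572000 * H ^ (9 : ℕ) * T * t ^ (21 : ℕ)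
    + 48037017600 * H ^ (6 : ℕ) * T ^ (3 : ℕ) * t ^ (21 : ℕ)
    + 67346104320 * H ^ (3 : ℕ) * T ^ (5 : ℕ) * t ^ (21 : ℕ)
    + 28835840000 * T ^ (7 : ℕ) * t ^ (21 : ℕ) + 24357712500 * H ^ (11 : ℕ) * t ^ (22 : ℕ)
    + 79771262400 * H ^ (8 : ℕ) * T ^ (2 : ℕ) * t ^ (22 : ℕ)
    + 86438264832 * H ^ (5 : ℕ) * T ^ (4 : ℕ) * t ^ (22 : ℕ)
    + 31024742400 * H ^ (2 : ℕ) * T ^ (6 : ℕ) * t ^ (22 : ℕ)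
    - 11219310000 * H ^ (10 : ℕ) * T * t ^ (23 : ℕ)
    - 35025592320 * H ^ (7 : ℕ) * T ^ (3 : ℕ) * t ^ (23 : ℕ)
    - 36389191680 * H ^ (4 : ℕ) * T ^ (5 : ℕ) * t ^ (23 : ℕ)
    - 12582912000 * H * T ^ (7 : ℕ) * t ^ (23 : ℕ) + 8303765625 * H ^ (12 : ℕ) * t ^ (24 : ℕ)
    + 35271936000 * H ^ (9 : ℕ) * T ^ (2 : ℕ) * t ^ (24 : ℕ)
    + 56118583296 * H ^ (6 : ℕ) * T ^ (4 : ℕ) * t ^ (24 : ℕ)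
    + 39636172800 * H ^ (3 : ℕ) * T ^ (6 : ℕ) * t ^ (24 : ℕ)
    + 10485760000 * T ^ (8 : ℕ) * t ^ (24 : ℕ)

theorem rsF_sq_eq (H T t : R) : rsF H T t ^ 2 = rsF2 H T t := by
  simp only [rsF, rsF2]
  ring

end Fermat.Agent.S52
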