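import Fermat.Agent.S52.RSRel.F5

/-!
# S52: the discriminant relation of the Rubin–Silverberg family, staged (H2)
(generated by helper52's python CAS; every step is one multiplication checked by `ring`)
-/

set_option autoImplicit false
set_option maxHeartbeats 0
set_option maxRecDepth 1000000

namespace Fermat.Agent.S52

variable {R : Type*} [CommRing R]

/-- expanded product `rsH2` -/
def rsH2 (H T t : R) : R :=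
  H ^ (2 : ℕ) - 40 * H * T * t - 380 * H ^ (3 : ℕ) * t ^ (2 : ℕ) + 400 * T ^ (2 : ℕ) * t ^ (2 : ℕ)
    + 9880 * H ^ (2 : ℕ) * T * t ^ (3 : ℕ) + 34390 * H ^ (4 : ℕ) * t ^ (4 : ℕ)
    - 57000 * H * T ^ (2 : ℕ) * t ^ (4 : ℕ) - 430008 * H ^ (3 : ℕ) * T * t ^ (5 : ℕ)
    + 228000 * T ^ (3 : ℕ) * t ^ (5 : ℕ) + 119700 * H ^ (5 : ℕ) * t ^ (6 : ℕ)
    + 3958080 * H ^ (2 : ℕ) * T ^ (2 : ℕ) * t ^ (6 : ℕ) + 8565960 * H ^ (4 : ℕ) * T * t ^ (7 : ℕ)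
    - 10077600 * H * T ^ (3 : ℕ) * t ^ (7 : ℕ) + 37718325 * H ^ (6 : ℕ) * t ^ (8 : ℕ)
    - 13992360 * H ^ (3 : ℕ) * T ^ (2 : ℕ) * t ^ (8 : ℕ) + 25194000 * T ^ (4 : ℕ) * t ^ (8 : ℕ)
    - 250699680 * H ^ (5 : ℕ) * T * t ^ (9 : ℕ) + 22739200 * H ^ (2 : ℕ) * T ^ (3 : ℕ) * t ^ (9 : ℕ)
    + 575586000 * H ^ (7 : ℕ) * t ^ (10 : ℕ) + 2219118528 * H ^ (4 : ℕ) * T ^ (2 : ℕ) * t ^ (10 : ℕ)
    + 795872000 * H * T ^ (4 : ℕ) * t ^ (10 : ℕ) - 2993047200 * H ^ (6 : ℕ) * T * t ^ (11 : ℕ)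
    - 6751888640 * H ^ (3 : ℕ) * T ^ (3 : ℕ) * t ^ (11 : ℕ)
    - 1447040000 * T ^ (5 : ℕ) * t ^ (11 : ℕ) + 8345997000 * H ^ (8 : ℕ) * t ^ (12 : ℕ)
    + 40317066720 * H ^ (5 : ℕ) * T ^ (2 : ℕ) * t ^ (12 : ℕ)
    + 37557923200 * H ^ (2 : ℕ) * T ^ (4 : ℕ) * t ^ (12 : ℕ)
    + 9914032800 * H ^ (7 : ℕ) * T * t ^ (13 : ℕ)
    - 129123720320 * H ^ (4 : ℕ) * T ^ (3 : ℕ) * t ^ (13 : ℕ)
    - 151070976000 * H * T ^ (5 : ℕ) * t ^ (13 : ℕ) + 204856290000 * H ^ (9 : ℕ) * t ^ (14 : ℕ)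
    - 42245919360 * H ^ (6 : ℕ) * T ^ (2 : ℕ) * t ^ (14 : ℕ)
    - 54493459200 * H ^ (3 : ℕ) * T ^ (4 : ℕ) * t ^ (14 : ℕ)
    + 215815680000 * T ^ (6 : ℕ) * t ^ (14 : ℕ) - 2430961308000 * H ^ (8 : ℕ) * T * t ^ (15 : ℕ)
    - 2654629981056 * H ^ (5 : ℕ) * T ^ (3 : ℕ) * t ^ (15 : ℕ)
    - 183443328000 * H ^ (2 : ℕ) * T ^ (5 : ℕ) * t ^ (15 : ℕ)
    - 896246268750 * H ^ (10 : ℕ) * t ^ (16 : ℕ)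
    + 8622173628000 * H ^ (7 : ℕ) * T ^ (2 : ℕ) * t ^ (16 : ℕ)
    + 13897585598400 * H ^ (4 : ℕ) * T ^ (4 : ℕ) * t ^ (16 : ℕ)
    + 4316313600000 * H * T ^ (6 : ℕ) * t ^ (16 : ℕ)
    + 1650900690000 * H ^ (9 : ℕ) * T * t ^ (17 : ℕ)
    - 15848075347200 * H ^ (6 : ℕ) * T ^ (3 : ℕ) * t ^ (17 : ℕ)
    - 22665724416000 * H ^ (3 : ℕ) * T ^ (5 : ℕ) * t ^ (17 : ℕ)
    - 5078016000000 * T ^ (7 : ℕ) * t ^ (17 : ℕ) - 10393444125000 * H ^ (11 : ℕ) * t ^ (18 : ℕ)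
    + 30709162908000 * H ^ (8 : ℕ) * T ^ (2 : ℕ) * t ^ (18 : ℕ)
    + 120604054291200 * H ^ (5 : ℕ) * T ^ (4 : ℕ) * t ^ (18 : ℕ)
    + 79614827520000 * H ^ (2 : ℕ) * T ^ (6 : ℕ) * t ^ (18 : ℕ)
    + 239304492450000 * H ^ (10 : ℕ) * T * t ^ (19 : ℕ)
    + 292076704569600 * H ^ (7 : ℕ) * T ^ (3 : ℕ) * t ^ (19 : ℕ)
    - 182324460672000 * H ^ (4 : ℕ) * T ^ (5 : ℕ) * t ^ (19 : ℕ)
    - 235227955200000 * H * T ^ (7 : ℕ) * t ^ (19 : ℕ)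
    + 233196064762500 * H ^ (12 : ℕ) * t ^ (20 : ℕ)
    - 707118882750000 * H ^ (9 : ℕ) * T ^ (2 : ℕ) * t ^ (20 : ℕ)
    - 1952661330103680 * H ^ (6 : ℕ) * T ^ (4 : ℕ) * t ^ (20 : ℕ)
    - 777256273920000 * H ^ (3 : ℕ) * T ^ (6 : ℕ) * t ^ (20 : ℕ)
    + 235227955200000 * T ^ (8 : ℕ) * t ^ (20 : ℕ)
    - 2053088131050000 * H ^ (11 : ℕ) * T * t ^ (21 : ℕ)
    - 1884201998184000 * H ^ (8 : ℕ) * T ^ (3 : ℕ) * t ^ (21 : ℕ)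
    + 2490299042457600 * H ^ (5 : ℕ) * T ^ (5 : ℕ) * t ^ (21 : ℕ)
    + 2321544192000000 * H ^ (2 : ℕ) * T ^ (7 : ℕ) * t ^ (21 : ℕ)
    - 467704985625000 * H ^ (13 : ℕ) * t ^ (22 : ℕ)
    + 5751593399520000 * H ^ (10 : ℕ) * T ^ (2 : ℕ) * t ^ (22 : ℕ)
    + 11155985611603200 * H ^ (7 : ℕ) * T ^ (4 : ℕ) * t ^ (22 : ℕ)
    + 3068090718720000 * H ^ (4 : ℕ) * T ^ (6 : ℕ) * t ^ (22 : ℕ)
    - 1868709888000000 * H * T ^ (8 : ℕ) * t ^ (22 : ℕ)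
    + 1634933949750000 * H ^ (12 : ℕ) * T * t ^ (23 : ℕ)
    - 8930374962264000 * H ^ (9 : ℕ) * T ^ (3 : ℕ) * t ^ (23 : ℕ)
    - 21265615494835200 * H ^ (6 : ℕ) * T ^ (5 : ℕ) * t ^ (23 : ℕ)
    - 9075430195200000 * H ^ (3 : ℕ) * T ^ (7 : ℕ) * t ^ (23 : ℕ)
    + 1624965120000000 * T ^ (9 : ℕ) * t ^ (23 : ℕ) - 1814898694218750 * H ^ (14 : ℕ) * t ^ (24 : ℕ)
    - 2387600059950000 * H ^ (11 : ℕ) * T ^ (2 : ℕ) * t ^ (24 : ℕ)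
    + 26104596669986400 * H ^ (8 : ℕ) * T ^ (4 : ℕ) * t ^ (24 : ℕ)
    + 52229811695616000 * H ^ (5 : ℕ) * T ^ (6 : ℕ) * t ^ (24 : ℕ)
    + 25552576512000000 * H ^ (2 : ℕ) * T ^ (8 : ℕ) * t ^ (24 : ℕ)
    + 26825931175500000 * H ^ (13 : ℕ) * T * t ^ (25 : ℕ)
    + 79513739825760000 * H ^ (10 : ℕ) * T ^ (3 : ℕ) * t ^ (25 : ℕ)
    + 49918421619154944 * H ^ (7 : ℕ) * T ^ (5 : ℕ) * t ^ (25 : ℕ)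
    - 31498730127360000 * H ^ (4 : ℕ) * T ^ (7 : ℕ) * t ^ (25 : ℕ)
    - 28729383321600000 * H * T ^ (9 : ℕ) * t ^ (25 : ℕ)
    + 18667529426250000 * H ^ (15 : ℕ) * t ^ (26 : ℕ)
    - 9181658917800000 * H ^ (12 : ℕ) * T ^ (2 : ℕ) * t ^ (26 : ℕ)
    - 146945219552352000 * H ^ (9 : ℕ) * T ^ (4 : ℕ) * t ^ (26 : ℕ)
    - 169648672884572160 * H ^ (6 : ℕ) * T ^ (6 : ℕ) * t ^ (26 : ℕ)
    - 28453139251200000 * H ^ (3 : ℕ) * T ^ (8 : ℕ) * t ^ (26 : ℕ)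
    + 22099525632000000 * T ^ (10 : ℕ) * t ^ (26 : ℕ)
    - 63884434036500000 * H ^ (14 : ℕ) * T * t ^ (27 : ℕ)
    - 85557819805920000 * H ^ (11 : ℕ) * T ^ (3 : ℕ) * t ^ (27 : ℕ)
    + 153700665457812480 * H ^ (8 : ℕ) * T ^ (5 : ℕ) * t ^ (27 : ℕ)
    + 308585068698009600 * H ^ (5 : ℕ) * T ^ (7 : ℕ) * t ^ (27 : ℕ)
    + 133211029504000000 * H ^ (2 : ℕ) * T ^ (9 : ℕ) * t ^ (27 : ℕ)
    + 34223803948125000 * H ^ (16 : ℕ) * t ^ (28 : ℕ)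
    + 313337938369500000 * H ^ (13 : ℕ) * T ^ (2 : ℕ) * t ^ (28 : ℕ)
    + 687437727318288000 * H ^ (10 : ℕ) * T ^ (4 : ℕ) * t ^ (28 : ℕ)
    + 503030797468139520 * H ^ (7 : ℕ) * T ^ (6 : ℕ) * t ^ (28 : ℕ)
    + 25953130414080000 * H ^ (4 : ℕ) * T ^ (8 : ℕ) * t ^ (28 : ℕ)
    - 68754079744000000 * H * T ^ (10 : ℕ) * t ^ (28 : ℕ)
    - 44372932015500000 * H ^ (15 : ℕ) * T * t ^ (29 : ℕ)
    - 386555342418000000 * H ^ (12 : ℕ) * T ^ (3 : ℕ) * t ^ (29 : ℕ)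
    - 860786439962941440 * H ^ (9 : ℕ) * T ^ (5 : ℕ) * t ^ (29 : ℕ)
    - 691996397322240000 * H ^ (6 : ℕ) * T ^ (7 : ℕ) * t ^ (29 : ℕ)
    - 125975763353600000 * H ^ (3 : ℕ) * T ^ (9 : ℕ) * t ^ (29 : ℕ)
    + 47416606720000000 * T ^ (11 : ℕ) * t ^ (29 : ℕ)
    + 106211805356250000 * H ^ (17 : ℕ) * t ^ (30 : ℕ)
    + 662750221726800000 * H ^ (14 : ℕ) * T ^ (2 : ℕ) * t ^ (30 : ℕ)
    + 1813236539729760000 * H ^ (11 : ℕ) * T ^ (4 : ℕ) * t ^ (30 : ℕ)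
    + 2534079367381782528 * H ^ (8 : ℕ) * T ^ (6 : ℕ) * t ^ (30 : ℕ)
    + 1748397492928512000 * H ^ (5 : ℕ) * T ^ (8 : ℕ) * t ^ (30 : ℕ)
    + 471016249753600000 * H ^ (2 : ℕ) * T ^ (10 : ℕ) * t ^ (30 : ℕ)
    - 55358880367500000 * H ^ (16 : ℕ) * T * t ^ (31 : ℕ)
    - 475963669306800000 * H ^ (13 : ℕ) * T ^ (3 : ℕ) * t ^ (31 : ℕ)
    - 1513964898301363200 * H ^ (10 : ℕ) * T ^ (5 : ℕ) * t ^ (31 : ℕ)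
    - 2244156921104302080 * H ^ (7 : ℕ) * T ^ (7 : ℕ) * t ^ (31 : ℕ)
    - 1573481991372800000 * H ^ (4 : ℕ) * T ^ (9 : ℕ) * t ^ (31 : ℕ)
    - 422685179904000000 * H * T ^ (11 : ℕ) * t ^ (31 : ℕ)
    + 313204130567578125 * H ^ (18 : ℕ) * t ^ (32 : ℕ)
    + 1493144870935500000 * H ^ (15 : ℕ) * T ^ (2 : ℕ) * t ^ (32 : ℕ)
    + 3003494957651160000 * H ^ (12 : ℕ) * T ^ (4 : ℕ) * t ^ (32 : ℕ)
    + 3445898645011415040 * H ^ (9 : ℕ) * T ^ (6 : ℕ) * t ^ (32 : ℕ)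
    + 2552048609565081600 * H ^ (6 : ℕ) * T ^ (8 : ℕ) * t ^ (32 : ℕ)
    + 1193882419200000000 * H ^ (3 : ℕ) * T ^ (10 : ℕ) * t ^ (32 : ℕ)
    + 264178237440000000 * T ^ (12 : ℕ) * t ^ (32 : ℕ)
    - 868040118320625000 * H ^ (17 : ℕ) * T * t ^ (33 : ℕ)
    - 4080135443148000000 * H ^ (14 : ℕ) * T ^ (3 : ℕ) * t ^ (33 : ℕ)
    - 7589683595941171200 * H ^ (11 : ℕ) * T ^ (5 : ℕ) * t ^ (33 : ℕ)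
    - 6967928030174576640 * H ^ (8 : ℕ) * T ^ (7 : ℕ) * t ^ (33 : ℕ)
    - 3147146197991424000 * H ^ (5 : ℕ) * T ^ (9 : ℕ) * t ^ (33 : ℕ)
    - 556806438912000000 * H ^ (2 : ℕ) * T ^ (11 : ℕ) * t ^ (33 : ℕ)
    + 44728233539062500 * H ^ (19 : ℕ) * t ^ (34 : ℕ)
    + 1744652911412250000 * H ^ (16 : ℕ) * T ^ (2 : ℕ) * t ^ (34 : ℕ)
    + 7890968851869600000 * H ^ (13 : ℕ) * T ^ (4 : ℕ) * t ^ (34 : ℕ)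
    + 14991311339158855680 * H ^ (10 : ℕ) * T ^ (6 : ℕ) * t ^ (34 : ℕ)
    + 14403508500352204800 * H ^ (7 : ℕ) * T ^ (8 : ℕ) * t ^ (34 : ℕ)
    + 6942063171993600000 * H ^ (4 : ℕ) * T ^ (10 : ℕ) * t ^ (34 : ℕ)
    + 1338821836800000000 * H * T ^ (12 : ℕ) * t ^ (34 : ℕ)
    + 595524480834375000 * H ^ (18 : ℕ) * T * t ^ (35 : ℕ)
    + 2127340041429600000 * H ^ (15 : ℕ) * T ^ (3 : ℕ) * t ^ (35 : ℕ)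
    + 1782242933572224000 * H ^ (12 : ℕ) * T ^ (5 : ℕ) * t ^ (35 : ℕ)
    - 2227162459162411008 * H ^ (9 : ℕ) * T ^ (7 : ℕ) * t ^ (35 : ℕ)
    - 5034357019901952000 * H ^ (6 : ℕ) * T ^ (9 : ℕ) * t ^ (35 : ℕ)
    - 3321808237363200000 * H ^ (3 : ℕ) * T ^ (11 : ℕ) * t ^ (35 : ℕ)
    - 765041049600000000 * T ^ (13 : ℕ) * t ^ (35 : ℕ)
    + 578272162183593750 * H ^ (20 : ℕ) * t ^ (36 : ℕ)
    + 2561635632819375000 * H ^ (17 : ℕ) * T ^ (2 : ℕ) * t ^ (36 : ℕ)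
    + 4164954773065200000 * H ^ (14 : ℕ) * T ^ (4 : ℕ) * t ^ (36 : ℕ)
    + 2610670219529011200 * H ^ (11 : ℕ) * T ^ (6 : ℕ) * t ^ (36 : ℕ)
    - 215433102806876160 * H ^ (8 : ℕ) * T ^ (8 : ℕ) * t ^ (36 : ℕ)
    - 941602960834560000 * H ^ (5 : ℕ) * T ^ (10 : ℕ) * t ^ (36 : ℕ)
    - 297090940928000000 * H ^ (2 : ℕ) * T ^ (12 : ℕ) * t ^ (36 : ℕ)
    - 1212348120496875000 * H ^ (19 : ℕ) * T * t ^ (37 : ℕ)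
    - 6869130813841500000 * H ^ (16 : ℕ) * T ^ (3 : ℕ) * t ^ (37 : ℕ)
    - 16168738799907072000 * H ^ (13 : ℕ) * T ^ (5 : ℕ) * t ^ (37 : ℕ)
    - 20230954816863928320 * H ^ (10 : ℕ) * T ^ (7 : ℕ) * t ^ (37 : ℕ)
    - 14186519672861491200 * H ^ (7 : ℕ) * T ^ (9 : ℕ) * t ^ (37 : ℕ)
    - 5283564748800000000 * H ^ (4 : ℕ) * T ^ (11 : ℕ) * t ^ (37 : ℕ)
    - 816043786240000000 * H * T ^ (13 : ℕ) * t ^ (37 : ℕ)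
    - 287538644179687500 * H ^ (21 : ℕ) * t ^ (38 : ℕ)
    - 1179408410865000000 * H ^ (18 : ℕ) * T ^ (2 : ℕ) * t ^ (38 : ℕ)
    - 1156077619524000000 * H ^ (15 : ℕ) * T ^ (4 : ℕ) * t ^ (38 : ℕ)
    + 1848449107728691200 * H ^ (12 : ℕ) * T ^ (6 : ℕ) * t ^ (38 : ℕ)
    + 5430305136228433920 * H ^ (9 : ℕ) * T ^ (8 : ℕ) * t ^ (38 : ℕ)
    + 5292259389997056000 * H ^ (6 : ℕ) * T ^ (10 : ℕ) * t ^ (38 : ℕ)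
    + 2404107943936000000 * H ^ (3 : ℕ) * T ^ (12 : ℕ) * t ^ (38 : ℕ)
    + 429496729600000000 * T ^ (14 : ℕ) * t ^ (38 : ℕ)
    + 256262510953125000 * H ^ (20 : ℕ) * T * t ^ (39 : ℕ)
    + 1517343505429500000 * H ^ (17 : ℕ) * T ^ (3 : ℕ) * t ^ (39 : ℕ)
    + 3742967816703360000 * H ^ (14 : ℕ) * T ^ (5 : ℕ) * t ^ (39 : ℕ)
    + 4923690714959708160 * H ^ (11 : ℕ) * T ^ (7 : ℕ) * t ^ (39 : ℕ)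
    + 3642762648040243200 * H ^ (8 : ℕ) * T ^ (9 : ℕ) * t ^ (39 : ℕ)
    + 1437181956587520000 * H ^ (5 : ℕ) * T ^ (11 : ℕ) * t ^ (39 : ℕ)
    + 236223201280000000 * H ^ (2 : ℕ) * T ^ (13 : ℕ) * t ^ (39 : ℕ)
    + 34050628916015625 * H ^ (22 : ℕ) * t ^ (40 : ℕ)
    + 202723151709375000 * H ^ (19 : ℕ) * T ^ (2 : ℕ) * t ^ (40 : ℕ)
    + 502866825748650000 * H ^ (16 : ℕ) * T ^ (4 : ℕ) * t ^ (40 : ℕ)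
    + 665248545865728000 * H ^ (13 : ℕ) * T ^ (6 : ℕ) * t ^ (40 : ℕ)
    + 495016766918885376 * H ^ (10 : ℕ) * T ^ (8 : ℕ) * t ^ (40 : ℕ)
    + 196443214184448000 * H ^ (7 : ℕ) * T ^ (10 : ℕ) * t ^ (40 : ℕ)
    + 32480690176000000 * H ^ (4 : ℕ) * T ^ (12 : ℕ) * t ^ (40 : ℕ)

theorem rsH_sq_eq (H T t : R) : rsH H T t ^ 2 = rsH2 H T t := by
  simp only [rsH, rsH2]
  ring

end Fermat.Agent.S52
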